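/-
S41 (level raising) / block (NE) (helper21): the subgroup `Gal(ℚ̄/ℚ(ζ))` of the absolute Galois
group, for a primitive `m`-th root of unity `ζ`: it is normal and contains all commutators.
-/
import Mathlib

set_option autoImplicit false
set_option linter.unusedSectionVars false

namespace Fermat.Agent.S41.NE.FixGroup

variable {F K : Type*} [Field F] [Field K] [Algebra F K]

/-- The subgroup of automorphisms fixing `ζ`. -/
def fixGroup (F : Type*) {K : Type*} [Field F] [Field K] [Algebra F K] (ζ : K) :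
    Subgroup (K ≃ₐ[F] K) where
  carrier := {σ | σ ζ = ζ}
  mul_mem' := fun {a b} ha hb => by
    change a (b ζ) = ζ
    rw [show b ζ = ζ from hb]
    exact ha
  one_mem' := rfl
  inv_mem' := fun {a} ha => by
    change a⁻¹ ζ = ζ
    have h1 : a⁻¹ (a ζ) = ζ := a.symm_apply_apply ζ
    rw [show a ζ = ζ from ha] at h1
    exact h1

theorem mem_fixGroup {ζ : K} {σ : K ≃ₐ[F] K} : σ ∈ fixGroup F ζ ↔ σ ζ = ζ := Iff.rfl

/-- Every automorphism raises a primitive root of unity to a power. -/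
theorem exists_pow_eq {ζ : K} {m : ℕ} (hm : 0 < m) (hζ : IsPrimitiveRoot ζ m) (σ : K ≃ₐ[F] K) :
    ∃ a : ℕ, σ ζ = ζ ^ a := by
  have h1 : (σ ζ) ^ m = 1 := by rw [← map_pow, hζ.pow_eq_one, map_one]
  haveI : NeZero m := ⟨hm.ne'⟩
  obtain ⟨i, -, hi⟩ := hζ.eq_pow_of_pow_eq_one h1
  exact ⟨i, hi.symm⟩

/-- The order of composition does not matter on a primitive root of unity. -/
theorem mul_apply_comm {ζ : K} {m : ℕ} (hm : 0 < m) (hζ : IsPrimitiveRoot ζ m)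
    (g₁ g₂ : K ≃ₐ[F] K) : (g₁ * g₂) ζ = (g₂ * g₁) ζ := by
  obtain ⟨a, ha⟩ := exists_pow_eq hm hζ g₁
  obtain ⟨b, hb⟩ := exists_pow_eq hm hζ g₂
  change g₁ (g₂ ζ) = g₂ (g₁ ζ)
  rw [ha, hb, map_pow, map_pow, ha, hb, ← pow_mul, ← pow_mul, mul_comm]

/-- `fixGroup ζ` contains the commutators. -/
theorem comm_mem_fixGroup {ζ : K} {m : ℕ} (hm : 0 < m) (hζ : IsPrimitiveRoot ζ m)
    (g₁ g₂ : K ≃ₐ[F] K) : (g₂ * g₁)⁻¹ * (g₁ * g₂) ∈ fixGroup F ζ := by
  change (g₂ * g₁)⁻¹ ((g₁ * g₂) ζ) = ζ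
  rw [mul_apply_comm hm hζ g₁ g₂]
  exact (g₂ * g₁).symm_apply_apply ζ

/-- `fixGroup ζ` is normal. -/
theorem normal_fixGroup {ζ : K} {m : ℕ} (hm : 0 < m) (hζ : IsPrimitiveRoot ζ m) :
    (fixGroup F ζ).Normal := by
  refine ⟨fun n hn g => ?_⟩
  obtain ⟨a, ha⟩ := exists_pow_eq hm hζ g⁻¹
  change g (n (g⁻¹ ζ)) = ζ
  have h1 : n (g⁻¹ ζ) = g⁻¹ ζ := by
    rw [ha, map_pow, show n ζ = ζ from hn]
  rw [h1]
  exact g.apply_symm_apply ζ

end Fermat.Agent.S41.NE.FixGroup
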