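/-
S41 (level raising) / block (NE) (helper21): **the mod `p` system of Hecke eigenvalues of an
elliptic curve over `ℚ` with irreducible `E[p]` is not Eisenstein.**

For an integral model `W` of `E`, an odd prime `p` with `E[p]` irreducible, every `m ≥ 1` and every
finite set `T` of primes there is a prime `ℓ ∉ T`, `ℓ ≡ 1 (mod m)`, of good reduction, `ℓ ≠ p`, with
`a_ℓ(W) ≢ ℓ + 1 (mod p)`   (`exists_prime_not_eisenstein`).

Proof.  Replace `m` by `m p`.  Suppose `a_ℓ ≡ ℓ + 1 ≡ 2 (mod p)` for all such `ℓ`.  Let `ζ` be a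
primitive `m`-th root of unity and `H = Gal(ℚ̄/ℚ(ζ))`.  For `g ∈ H` the Frobenius density theorem
(`N4/FrobDensity`) gives a Frobenius element `φ` at a prime `ℓ ∉ T` (good, prime to `m p`) such
that `φ` and `g` generate the same subgroup of `Gal(L/ℚ)`, `L ∋ ζ` a finite Galois level of
`W[p]`.  Then `φ ζ = ζ`, i.e. `ℓ ≡ 1 (mod m)`, so by block EC-G of S58
(`Good.Final.charpoly_frobenius`) `φ` has characteristic polynomial `X² - 2X + 1` on `W[p]`, hence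
`(ρ(φ) - 1)² = 0` and `(ρ(g) - 1)² = 0` (`g` is a power of `φ` on `L`).  The abstract lemma
`Abstract.exists_stable_of_quadUnipotent` (Kolchin; `det ρ(c) = -1` at the complex conjugation)
produces a Galois-stable line: contradiction.
-/
import Mathlib
import Fermat.Prelude.Def_FLTPrelim_Modularity
import Fermat.Agent.S58.EC.Good.Final
import Fermat.Agent.S58.EC.DetCyclo
import Fermat.Agent.S58.Form.Hres
import Fermat.Agent.S05.Transfer
import Fermat.Agent.S41.NE.Abstract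
import Fermat.Agent.S41.NE.FixGroup

set_option autoImplicit false
set_option linter.unusedSectionVars false
set_option linter.style.haveILetI false

namespace Fermat.Agent.S41.NE

open WeierstrassCurve WeierstrassCurve.Affine WeierstrassCurve.Affine.Point
open Fermat.Agent.N4.FrobDensity Fermat.Agent.S41.NE.FixGroup

local notation "Qbar" => AlgebraicClosure ℚ
local notation "Γ" => (AlgebraicClosure ℚ ≃ₐ[ℚ] AlgebraicClosure ℚ)

local instance isAlgebraicQbar_NE : Algebra.IsAlgebraic ℚ (AlgebraicClosure ℚ) :=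
  AlgebraicClosure.isAlgebraic ℚ
local instance isAlgClosureQbar_NE : IsAlgClosure ℚ (AlgebraicClosure ℚ) :=
  ⟨inferInstance, inferInstance⟩
local instance normalQbar_NE : Normal ℚ (AlgebraicClosure ℚ) :=
  IsAlgClosure.normal ℚ (AlgebraicClosure ℚ)
local instance normalClosureNormal_NE (L : IntermediateField ℚ Qbar) :
    Normal ℚ ↥(IntermediateField.normalClosure ℚ ↥L Qbar) := normal_normalClosure_rat L

/-! ### Powers of quadratic unipotents -/

theorem pow_sub_one_sq {R : Type*} [Ring R] {x : R} (h : (x - 1) * (x - 1) = 0) (n : ℕ) :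
    (x ^ n - 1) * (x ^ n - 1) = 0 := by
  have h1 := mul_geom_sum x n
  have h2 := geom_sum_mul x n
  calc (x ^ n - 1) * (x ^ n - 1)
      = ((∑ i ∈ Finset.range n, x ^ i) * (x - 1)) * ((x - 1) * ∑ i ∈ Finset.range n, x ^ i) := by
        rw [h1, h2]
    _ = (∑ i ∈ Finset.range n, x ^ i) * ((x - 1) * (x - 1)) * ∑ i ∈ Finset.range n, x ^ i := by
        noncomm_ring
    _ = 0 := by rw [h, mul_zero, zero_mul]

/-! ### The Frobenius step -/

section Frob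

variable (W : WeierstrassCurve ℤ) (p : ℕ) [hp : Fact p.Prime]

/-- The representation on `W(ℚ̄)[p^1]`. -/
noncomputable abbrev rho : Γ →* Module.End (ZMod (p ^ 1))
    (Submodule.torsionBy ℤ ((W.map (Int.castRingHom ℚ))⁄Qbar).Point ((p ^ 1 : ℕ) : ℤ)) :=
  galoisRepModuleEnd (K := Qbar) ℚ (W.map (Int.castRingHom ℚ)) (p ^ 1)

/-- A Frobenius element at a good prime `ℓ ≡ 1 (mod p)` with `a_ℓ ≡ 2 (mod p)` is a quadratic
unipotent on `W[p]`. -/
theorem quad_of_frobenius (hΔ : W.Δ ≠ 0) (hp2 : p ≠ 2) {ℓ : ℕ} (hℓ : ℓ.Prime)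
    (hgood : ¬ (ℓ : ℤ) ∣ W.Δ) (hpℓ : p ≠ ℓ) (A : ValuationSubring Qbar) (hA : A.LiesOverPrime ℓ)
    (φ : Γ) (hφ : A.IsFrobeniusAt φ ℓ)
    (ha : ((W.apOfModel ℓ : ℤ) : ZMod (p ^ 1)) = 2) (hl : ((ℓ : ℕ) : ZMod (p ^ 1)) = 1) :
    (rho W p φ - 1) * (rho W p φ - 1) = 0 := by
  have hpQ : (p : Qbar) ≠ 0 := by exact_mod_cast hp.out.ne_zero
  obtain ⟨b⟩ := Fermat.Agent.S58.EC.TorsionBasis.nonempty_basis (K := Qbar)
    (W.map (Int.castRingHom ℚ)) (Fermat.Agent.S58.EC.DetCyclo.map_map_Δ_ne_zero W hΔ)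
    hp.out hp2 hpQ 1
  haveI : Module.Finite (ZMod (p ^ 1))
      (Submodule.torsionBy ℤ ((W.map (Int.castRingHom ℚ))⁄Qbar).Point ((p ^ 1 : ℕ) : ℤ)) :=
    Module.Finite.of_basis b
  haveI : Module.Free (ZMod (p ^ 1))
      (Submodule.torsionBy ℤ ((W.map (Int.castRingHom ℚ))⁄Qbar).Point ((p ^ 1 : ℕ) : ℤ)) :=
    Module.Free.of_basis b
  have hcp := Fermat.Agent.S58.EC.Good.Final.charpoly_frobenius W hℓ hgood A hA hp.out hp2 hpℓ 1
    φ hφ b
  rw [LinearMap.charpoly_toMatrix, ha, hl] at hcp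
  have h1 := LinearMap.aeval_self_charpoly (rho W p φ)
  rw [show LinearMap.charpoly (rho W p φ) = _ from hcp] at h1
  simp only [map_add, map_sub, map_mul, map_pow, Polynomial.aeval_X,
    map_ofNat, map_one] at h1
  rw [← h1]
  noncomm_ring

/-- **Every `g ∈ Gal(ℚ̄/ℚ(ζ_m))` is a quadratic unipotent on `W[p]`** if `p ∣ m` and
`a_ℓ ≡ ℓ + 1 (mod p)` for all good primes `ℓ ≡ 1 (mod m)` outside a finite set. -/
theorem quad_of_mem_fixGroup (hΔ : W.Δ ≠ 0) (hp2 : p ≠ 2) {m : ℕ} (hm : 0 < m) (hpm : p ∣ m)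
    {ζ : Qbar} (hζ : IsPrimitiveRoot ζ m) (T : Finset ℕ)
    (hE : ∀ ℓ : ℕ, ℓ.Prime → ℓ ∉ T → ℓ ≡ 1 [MOD m] → ¬ (ℓ : ℤ) ∣ W.Δ → ℓ ≠ p →
      (p : ℤ) ∣ W.apOfModel ℓ - ((ℓ : ℤ) + 1))
    (g : Γ) (hg : g ∈ fixGroup ℚ ζ) :
    (rho W p g - 1) * (rho W p g - 1) = 0 := by
  haveI := Fermat.Agent.S58.EC.DetCyclo.finite_torsionBy_pow W p hΔ hp2 1
  obtain ⟨L₁, hL₁, hρ⟩ :=
    Fermat.Agent.S58.EC.DetCyclo.galoisRepModuleEnd_factors (W.map (Int.castRingHom ℚ)) (p ^ 1)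
  haveI := hL₁
  have hζint : IsIntegral ℚ ζ := (Algebra.IsAlgebraic.isAlgebraic ζ).isIntegral
  haveI : FiniteDimensional ℚ (IntermediateField.adjoin ℚ {ζ}) :=
    IntermediateField.adjoin.finiteDimensional hζint
  have hle : L₁ ⊔ IntermediateField.adjoin ℚ {ζ} ≤ IntermediateField.normalClosure ℚ
      (L₁ ⊔ IntermediateField.adjoin ℚ {ζ} : IntermediateField ℚ Qbar) Qbar :=
    IntermediateField.le_normalClosure _
  have hζL : ζ ∈ IntermediateField.normalClosure ℚ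
      (L₁ ⊔ IntermediateField.adjoin ℚ {ζ} : IntermediateField ℚ Qbar) Qbar :=
    hle (le_sup_right (a := L₁) (IntermediateField.mem_adjoin_simple_self ℚ ζ))
  obtain ⟨ℓ, hℓ, hℓT, A, hA, φ, hφ, hz, -⟩ := exists_isFrobeniusAt_zpowers_eq
    (IntermediateField.normalClosure ℚ
      (L₁ ⊔ IntermediateField.adjoin ℚ {ζ} : IntermediateField ℚ Qbar) Qbar) g
    (T ∪ Fermat.Agent.S58.EC.DetCyclo.badSet W p ∪ m.primeFactors)
  set L := IntermediateField.normalClosure ℚ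
      (L₁ ⊔ IntermediateField.adjoin ℚ {ζ} : IntermediateField ℚ Qbar) Qbar with hLdef
  rw [Finset.mem_union, Finset.mem_union, not_or, not_or] at hℓT
  obtain ⟨⟨hℓT, hℓbad⟩, hℓm⟩ := hℓT
  obtain ⟨hℓp, hgood⟩ := Fermat.Agent.S58.EC.DetCyclo.not_dvd_of_notMem_badSet W p hΔ hℓ hℓbad
  have hcop : Nat.Coprime ℓ m := by
    rw [Nat.Prime.coprime_iff_not_dvd hℓ]
    intro hdvd
    exact hℓm (Nat.mem_primeFactors.mpr ⟨hℓ, hdvd, hm.ne'⟩)
  haveI : IsGalois ℚ L := ⟨⟩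
  haveI : Finite (L ≃ₐ[ℚ] L) := inferInstance
  have h1 : AlgEquiv.restrictNormalHom L g ∈ Subgroup.zpowers (AlgEquiv.restrictNormalHom L φ) := by
    rw [hz]
    exact Subgroup.mem_zpowers _
  have h2 : AlgEquiv.restrictNormalHom L φ ∈ Subgroup.zpowers (AlgEquiv.restrictNormalHom L g) := by
    rw [← hz]
    exact Subgroup.mem_zpowers _
  rw [← mem_powers_iff_mem_zpowers, Submonoid.mem_powers_iff] at h1 h2
  obtain ⟨b, hb⟩ := h1
  obtain ⟨a, ha⟩ := h2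
  -- `φ` fixes `ζ`
  have hφζ : φ ζ = ζ := by
    have e : AlgEquiv.restrictNormalHom L (g ^ a) = AlgEquiv.restrictNormalHom L φ := by
      rw [map_pow, ha]
    have h3 := apply_eq_of_restrictNormalHom_eq L e hζL
    rw [← h3]
    exact (fixGroup ℚ ζ).pow_mem hg a
  -- hence `ℓ ≡ 1 (mod m)`
  have hζℓ : φ ζ = ζ ^ ℓ := apply_rootOfUnity_of_isFrobeniusAt hφ hA hcop hm.ne' hζ.pow_eq_one
  have hmod : ℓ ≡ 1 [MOD m] := by
    have h3 : ζ ^ ℓ = ζ := by rw [← hζℓ, hφζ]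
    have hζ0 : ζ ≠ 0 := hζ.ne_zero hm.ne'
    have h4 : ζ ^ (ℓ - 1) = 1 := by
      have h5 : ζ * ζ ^ (ℓ - 1) = ζ * 1 := by
        rw [← pow_succ', Nat.sub_add_cancel hℓ.one_le, h3, mul_one]
      exact mul_left_cancel₀ hζ0 h5
    have h6 : m ∣ ℓ - 1 := (hζ.pow_eq_one_iff_dvd _).mp h4
    exact ((Nat.modEq_iff_dvd' hℓ.one_le).mpr h6).symm
  have hmodp : ℓ ≡ 1 [MOD p ^ 1] := by
    rw [pow_one]
    exact hmod.of_dvd hpm
  have hdvd := hE ℓ hℓ hℓT hmod hgood hℓp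
  have hl1 : ((ℓ : ℕ) : ZMod (p ^ 1)) = 1 := by
    have := (ZMod.natCast_eq_natCast_iff ℓ 1 (p ^ 1)).mpr hmodp
    rw [this, Nat.cast_one]
  have ha2 : ((W.apOfModel ℓ : ℤ) : ZMod (p ^ 1)) = 2 := by
    have h3 : ((W.apOfModel ℓ - ((ℓ : ℤ) + 1) : ℤ) : ZMod (p ^ 1)) = 0 := by
      rw [ZMod.intCast_zmod_eq_zero_iff_dvd]
      rw [pow_one]
      exact hdvd
    rw [Int.cast_sub, Int.cast_add, Int.cast_one, Int.cast_natCast, hl1, sub_eq_zero] at h3
    rw [h3]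
    norm_num
  have hquadφ := quad_of_frobenius W p hΔ hp2 hℓ hgood (Ne.symm hℓp) A hA φ hφ ha2 hl1
  -- `ρ g = (ρ φ) ^ b`
  have e : AlgEquiv.restrictNormalHom L g = AlgEquiv.restrictNormalHom L (φ ^ b) := by
    rw [map_pow, hb]
  have hfix : ∀ y ∈ L, ((φ ^ b)⁻¹ * g) y = y := by
    intro y hy
    rw [AlgEquiv.mul_apply, apply_eq_of_restrictNormalHom_eq L e hy]
    exact (φ ^ b).symm_apply_apply y
  have e1 : rho W p ((φ ^ b)⁻¹ * g) = 1 :=
    hρ _ fun y hy => hfix y (hle (le_sup_left (a := L₁) hy))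
  have e2 : rho W p g = (rho W p φ) ^ b := by
    have h3 : rho W p ((φ ^ b) * ((φ ^ b)⁻¹ * g)) = rho W p g := by rw [mul_inv_cancel_left]
    rw [map_mul, e1, mul_one, map_pow] at h3
    exact h3.symm
  rw [e2]
  exact pow_sub_one_sq hquadφ b

/-- **(NE) for an integral model**, irreducibility stated for `W_ℚ` at level `p ^ 1`. -/
theorem exists_prime_of_model (hΔ : W.Δ ≠ 0) (hp2 : p ≠ 2)
    (hirr : GaloisRepIsIrreducible (K := Qbar) ℚ (W.map (Int.castRingHom ℚ)).toAffine (p ^ 1))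
    (m : ℕ) (hm : 0 < m) (T : Finset ℕ) :
    ∃ ℓ : ℕ, ℓ.Prime ∧ ℓ ∉ T ∧ ℓ % m = 1 % m ∧ W.IsGoodPrimeFor ℓ ∧ ℓ ≠ p ∧
      ¬ ((p : ℤ) ∣ W.apOfModel ℓ - ((ℓ : ℤ) + 1)) := by
  by_contra hcon
  push Not at hcon
  have hm' : 0 < m * p := Nat.mul_pos hm hp.out.pos
  haveI : NeZero ((m * p : ℕ) : ℚ) := ⟨by exact_mod_cast hm'.ne'⟩
  obtain ⟨ζ, hζ⟩ := HasEnoughRootsOfUnity.exists_primitiveRoot Qbar (m * p)
  have hE : ∀ ℓ : ℕ, ℓ.Prime → ℓ ∉ T → ℓ ≡ 1 [MOD m * p] → ¬ (ℓ : ℤ) ∣ W.Δ → ℓ ≠ p →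
      (p : ℤ) ∣ W.apOfModel ℓ - ((ℓ : ℤ) + 1) := fun ℓ h1 h2 h3 h4 h5 =>
    hcon ℓ h1 h2 (h3.of_dvd (dvd_mul_right m p)) h4 h5
  haveI := normal_fixGroup (F := ℚ) hm' hζ
  haveI : Fact (p ^ 1).Prime := ⟨by rw [pow_one]; exact hp.out⟩
  have hpQ : (p : Qbar) ≠ 0 := by exact_mod_cast hp.out.ne_zero
  obtain ⟨b⟩ := Fermat.Agent.S58.EC.TorsionBasis.nonempty_basis (K := Qbar)
    (W.map (Int.castRingHom ℚ)) (Fermat.Agent.S58.EC.DetCyclo.map_map_Δ_ne_zero W hΔ)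
    hp.out hp2 hpQ 1
  haveI : Module.Finite (ZMod (p ^ 1))
      (Submodule.torsionBy ℤ ((W.map (Int.castRingHom ℚ))⁄Qbar).Point ((p ^ 1 : ℕ) : ℤ)) :=
    Module.Finite.of_basis b
  have hdim : Module.finrank (ZMod (p ^ 1))
      (Submodule.torsionBy ℤ ((W.map (Int.castRingHom ℚ))⁄Qbar).Point ((p ^ 1 : ℕ) : ℤ)) = 2 := by
    rw [Module.finrank_eq_card_basis b, Fintype.card_fin]
  have h2 : (2 : ZMod (p ^ 1)) ≠ 0 := by
    intro h
    have h3 : ((2 : ℕ) : ZMod (p ^ 1)) = 0 := by exact_mod_cast h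
    rw [ZMod.natCast_eq_zero_iff, pow_one] at h3
    exact hp2 ((Nat.prime_dvd_prime_iff_eq hp.out Nat.prime_two).mp h3)
  have hG : Fermat.Agent.S58.EC.DetCyclo.DetFrobHyp W p (p ^ 1) :=
    fun _ hl hlp hgood A hA φ hφ =>
      (Fermat.Agent.S58.EC.Good.Final.trace_det_frobenius W hl hgood A hA hp.out hp2
        (Ne.symm hlp) 1 φ hφ).2
  have hdetc : LinearMap.det (rho W p complexConjugation) = -1 :=
    Fermat.Agent.S58.EC.DetCyclo.det_involution_pow_of_model W p hΔ hp2 1 hG complexConjugation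
      complexConjugation_mul_self Fermat.Agent.S58.Form.Hres.complexConjugation_ne_one
  obtain ⟨N, hN, hbot, htop⟩ := Abstract.exists_stable_of_quadUnipotent (rho W p) h2 hdim
    (fixGroup ℚ ζ)
    (fun g hg => quad_of_mem_fixGroup W p hΔ hp2 hm' (dvd_mul_left p m) hζ T hE g hg)
    (fun g₁ g₂ => comm_mem_fixGroup hm' hζ g₁ g₂) complexConjugation
    complexConjugation_mul_self hdetc
  rcases hirr.2 N (fun σ x hx => hN σ x hx) with h | h
  exacts [hbot h, htop h]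

end Frob

/-! ### Transport along a change of variables and the final statement -/

section Final

open Fermat.Agent.S05.Transfer

/-- Irreducibility of the Galois representation on the `n`-torsion is invariant under a change of
variables defined over `ℚ`. -/
theorem irreducible_variableChange (E : WeierstrassCurve ℚ) (C : VariableChange ℚ) (n : ℕ)
    (h : GaloisRepIsIrreducible (K := Qbar) ℚ E.toAffine n) :
    GaloisRepIsIrreducible (K := Qbar) ℚ (C • E).toAffine n := by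
  obtain ⟨hnt, hN⟩ := h
  -- the map on torsion
  have hmem : ∀ x : Submodule.torsionBy ℤ ((C • E).toAffine⁄Qbar).Point n,
      baseChangeEquiv (K := Qbar) E C x.1 ∈ Submodule.torsionBy ℤ (E.toAffine⁄Qbar).Point n :=
    fun x => (baseChangeEquiv_mem_torsionBy_iff E C n x.1).mpr x.2
  let f : Submodule.torsionBy ℤ ((C • E).toAffine⁄Qbar).Point n →+
      Submodule.torsionBy ℤ (E.toAffine⁄Qbar).Point n :=
    { toFun := fun x => ⟨baseChangeEquiv (K := Qbar) E C x.1, hmem x⟩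
      map_zero' := Subtype.ext (map_zero _)
      map_add' := fun x y => Subtype.ext (map_add _ x.1 y.1) }
  have hf_inj : Function.Injective f := by
    intro x y hxy
    have h1 : baseChangeEquiv (K := Qbar) E C x.1 = baseChangeEquiv (K := Qbar) E C y.1 :=
      congrArg Subtype.val hxy
    exact Subtype.ext ((baseChangeEquiv (K := Qbar) E C).injective h1)
  have hf_surj : Function.Surjective f := by
    intro y
    obtain ⟨P, hP⟩ := (baseChangeEquiv (K := Qbar) E C).surjective y.1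
    have hPmem : P ∈ Submodule.torsionBy ℤ ((C • E).toAffine⁄Qbar).Point n := by
      rw [← baseChangeEquiv_mem_torsionBy_iff, hP]
      exact y.2
    exact ⟨⟨P, hPmem⟩, Subtype.ext hP⟩
  have hf_smul : ∀ (σ : Γ) (x : Submodule.torsionBy ℤ ((C • E).toAffine⁄Qbar).Point n),
      f (σ • x) = σ • f x := by
    intro σ x
    apply Subtype.ext
    exact baseChangeEquiv_smul E C σ x.1
  let fL := f.toZModLinearMap n
  have hfL : ∀ x, fL x = f x := fun _ => rfl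
  refine ⟨?_, fun N' hN' => ?_⟩
  · obtain ⟨a, b, hab⟩ := hnt
    obtain ⟨a', rfl⟩ := hf_surj a
    obtain ⟨b', rfl⟩ := hf_surj b
    exact ⟨a', b', fun h => hab (by rw [h])⟩
  · have hstab : IsGaloisStable ℚ (Submodule.map fL N') := by
      rintro σ _ ⟨x, hx, rfl⟩
      exact ⟨σ • x, hN' σ x hx, by rw [hfL, hfL, hf_smul]⟩
    rcases hN _ hstab with h | h
    · left
      rw [Submodule.eq_bot_iff]
      intro x hx
      have h1 : fL x ∈ Submodule.map fL N' := Submodule.mem_map_of_mem hx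
      rw [h, Submodule.mem_bot] at h1
      exact hf_inj (by rw [← hfL, h1, _root_.map_zero])
    · right
      rw [Submodule.eq_top_iff']
      intro x
      have h1 : fL x ∈ Submodule.map fL N' := by rw [h]; exact Submodule.mem_top
      obtain ⟨y, hy, hyx⟩ := h1
      have : y = x := hf_inj (by rw [← hfL, ← hfL, hyx])
      exact this ▸ hy

/-- The discriminant of an integral model of an elliptic curve is nonzero. -/
theorem Δ_ne_zero_of_isIntegralModelOf (E : WeierstrassCurve ℚ) [E.IsElliptic]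
    {W : WeierstrassCurve ℤ} (hW : W.IsIntegralModelOf E) : W.Δ ≠ 0 := by
  obtain ⟨C, hC⟩ := hW
  intro h
  have h1 : (C • E).Δ = 0 := by
    rw [hC, WeierstrassCurve.map_Δ, h, _root_.map_zero]
  rw [WeierstrassCurve.variableChange_Δ] at h1
  rcases mul_eq_zero.mp h1 with h2 | h2
  · exact (pow_ne_zero 12 (Units.ne_zero C.u⁻¹)) h2
  · exact E.isUnit_Δ.ne_zero h2

/-- **Block (NE) of S41: the mod `p` eigenvalue system of `E` is not Eisenstein.**  For every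
modulus `m ≥ 1` and finite set `T` there is a prime `ℓ ∉ T`, `ℓ ≡ 1 (mod m)`, good for `W`,
`ℓ ≠ p`, with `a_ℓ(W) ≢ ℓ + 1 (mod p)`. -/
theorem exists_prime_not_eisenstein (E : WeierstrassCurve ℚ) [E.IsElliptic]
    {W : WeierstrassCurve ℤ} (hW : W.IsIntegralModelOf E) {p : ℕ} (hp : p.Prime) (hp2 : p ≠ 2)
    (hirr : GaloisRepIsIrreducible (K := AlgebraicClosure ℚ) ℚ E p) (m : ℕ) (hm : 0 < m)
    (T : Finset ℕ) :
    ∃ ℓ : ℕ, ℓ.Prime ∧ ℓ ∉ T ∧ ℓ % m = 1 % m ∧ W.IsGoodPrimeFor ℓ ∧ ℓ ≠ p ∧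
      ¬ ((p : ℤ) ∣ W.apOfModel ℓ - ((ℓ : ℤ) + 1)) := by
  haveI : Fact p.Prime := ⟨hp⟩
  have hΔ := Δ_ne_zero_of_isIntegralModelOf E hW
  obtain ⟨C, hC⟩ := hW
  have h1 : GaloisRepIsIrreducible (K := Qbar) ℚ (C • E).toAffine (p ^ 1) := by
    rw [pow_one]
    exact irreducible_variableChange E C p hirr
  rw [hC] at h1
  exact exists_prime_of_model W p hΔ hp2 h1 m hm T

/-- The same in `ZMod p`. -/
theorem exists_prime_not_eisenstein_zmod (E : WeierstrassCurve ℚ) [E.IsElliptic]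
    {W : WeierstrassCurve ℤ} (hW : W.IsIntegralModelOf E) {p : ℕ} (hp : p.Prime) (hp2 : p ≠ 2)
    (hirr : GaloisRepIsIrreducible (K := AlgebraicClosure ℚ) ℚ E p) (m : ℕ) (hm : 0 < m)
    (T : Finset ℕ) :
    ∃ ℓ : ℕ, ℓ.Prime ∧ ℓ ∉ T ∧ ℓ % m = 1 % m ∧ W.IsGoodPrimeFor ℓ ∧ ℓ ≠ p ∧
      ((W.apOfModel ℓ : ℤ) : ZMod p) ≠ (ℓ : ZMod p) + 1 := by
  obtain ⟨ℓ, h1, h2, h3, h4, h5, h6⟩ := exists_prime_not_eisenstein E hW hp hp2 hirr m hm T
  refine ⟨ℓ, h1, h2, h3, h4, h5, fun h => h6 ?_⟩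
  rw [← ZMod.intCast_zmod_eq_zero_iff_dvd]
  push_cast
  rw [h]
  ring

end Final

end Fermat.Agent.S41.NE
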