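/-
S41 / block (NE) (helper21): `exists_prime_not_eisenstein` in the consumer shape of the assembly
(moonshots row 35, `NotEisenstein W p`; = helper29's `not_eisenstein` shape of #1200).
-/
import Fermat.Agent.S41.NE.NotEisenstein

set_option autoImplicit false

namespace Fermat.Agent.S41.NE.Shape

open WeierstrassCurve WeierstrassCurve.Affine WeierstrassCurve.Affine.Point

/-- The mod `p` eigenvalue system `ℓ ↦ a_ℓ(W)` is not Eisenstein (consumer shape). -/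
def NotEisenstein (W : WeierstrassCurve ℤ) (p : ℕ) : Prop :=
  ∀ m : ℕ, 0 < m → ∀ T : Finset ℕ, ∃ ℓ : ℕ, ℓ.Prime ∧ W.IsGoodPrimeFor ℓ ∧ ℓ ∉ T ∧ ℓ ≠ p ∧
    ℓ ≡ 1 [MOD m] ∧ ¬ (p : ℤ) ∣ ((ℓ : ℤ) + 1 - W.apOfModel ℓ)

/-- **Block (NE)**, consumer shape, under the verbatim hypotheses of the frozen S41. -/
theorem notEisenstein (E : WeierstrassCurve ℚ) [E.IsElliptic] {W : WeierstrassCurve ℤ}
    (hW : W.IsIntegralModelOf E) {p : ℕ} (hp : p.Prime) (hp2 : p ≠ 2)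
    (hirr : GaloisRepIsIrreducible (K := AlgebraicClosure ℚ) ℚ E p) : NotEisenstein W p := by
  intro m hm T
  obtain ⟨ℓ, h1, h2, h3, h4, h5, h6⟩ :=
    Fermat.Agent.S41.NE.exists_prime_not_eisenstein E hW hp hp2 hirr m hm T
  exact ⟨ℓ, h1, h4, h2, h5, h3, fun h => h6 ((dvd_sub_comm).mp h)⟩

/-- The same statement with the proposition spelled out (no auxiliary definition). -/
theorem not_eisenstein (E : WeierstrassCurve ℚ) [E.IsElliptic] {W : WeierstrassCurve ℤ}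
    (hW : W.IsIntegralModelOf E) {p : ℕ} (hp : p.Prime) (hp2 : p ≠ 2)
    (hirr : GaloisRepIsIrreducible (K := AlgebraicClosure ℚ) ℚ E p) (m : ℕ) (hm : 0 < m)
    (T : Finset ℕ) :
    ∃ ℓ : ℕ, ℓ.Prime ∧ W.IsGoodPrimeFor ℓ ∧ ℓ ∉ T ∧ ℓ ≠ p ∧ ℓ ≡ 1 [MOD m] ∧
      ¬ (p : ℤ) ∣ ((ℓ : ℤ) + 1 - W.apOfModel ℓ) :=
  notEisenstein E hW hp hp2 hirr m hm T

end Fermat.Agent.S41.NE.Shape
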