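/-
S41 (level raising) / block (NE), abstract linear algebra (helper21).

Let `ρ : G →* End_k(V)` be a two-dimensional representation over a field with `2 ≠ 0`, `H` a normal
subgroup of `G` containing all commutators and acting by quadratic unipotents (`(ρ h - 1)² = 0`),
and `c ∈ G` an involution with `det ρ(c) = -1`.  Then `V` has a `G`-stable subspace different from
`⊥` and `⊤`.

Proof: Kolchin (`S36/Top/QuadUnipotent`) gives a nonzero `H`-fixed vector; the space `V^H` of
`H`-fixed vectors is `G`-stable (normality).  If it is not everything we are done.  Otherwise `H`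
acts trivially, `ρ(G)` is commutative, and the `+1`-eigenspace of `ρ(c)` is `G`-stable; it is not
`⊤` (else `det ρ(c) = 1`) and not `⊥` (else `ρ(c) = -1` and `det ρ(c) = (-1)² = 1`).
-/
import Mathlib
import Fermat.Agent.S36.Top.QuadUnipotent

set_option autoImplicit false
set_option linter.unusedSectionVars false
set_option linter.style.haveILetI false

namespace Fermat.Agent.S41.NE.Abstract

variable {k : Type*} [Field k] {V : Type*} [AddCommGroup V] [Module k V] [FiniteDimensional k V]
  {G : Type*} [Group G]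

/-- The submodule of vectors fixed by a subgroup. -/
def fixedSub (ρ : G →* Module.End k V) (H : Subgroup G) : Submodule k V where
  carrier := {v | ∀ h ∈ H, ρ h v = v}
  add_mem' := fun {a b} ha hb h hh => by rw [map_add, ha h hh, hb h hh]
  zero_mem' := fun h _ => map_zero _
  smul_mem' := fun c {a} ha h hh => by rw [map_smul, ha h hh]

theorem mem_fixedSub {ρ : G →* Module.End k V} {H : Subgroup G} {v : V} :
    v ∈ fixedSub ρ H ↔ ∀ h ∈ H, ρ h v = v := Iff.rfl

/-- The fixed space of a normal subgroup is stable under the whole group. -/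
theorem fixedSub_stable (ρ : G →* Module.End k V) (H : Subgroup G) [hH : H.Normal] (g : G)
    {v : V} (hv : v ∈ fixedSub ρ H) : ρ g v ∈ fixedSub ρ H := by
  intro h hh
  have h1 : g⁻¹ * h * g ∈ H := by
    have := hH.conj_mem h hh g⁻¹
    simpa using this
  have h2 : ρ (g⁻¹ * h * g) v = v := hv _ h1
  have h3 : h * g = g * (g⁻¹ * h * g) := by group
  calc ρ h (ρ g v) = ρ (h * g) v := by rw [map_mul]; rfl
    _ = ρ (g * (g⁻¹ * h * g)) v := by rw [h3]
    _ = ρ g (ρ (g⁻¹ * h * g) v) := by rw [map_mul]; rfl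
    _ = ρ g v := by rw [h2]

/-- **Reducibility from a quadratic-unipotent normal subgroup with abelian quotient and an odd
involution.** -/
theorem exists_stable_of_quadUnipotent (ρ : G →* Module.End k V) (h2 : (2 : k) ≠ 0)
    (hdim : Module.finrank k V = 2) (H : Subgroup G) [H.Normal]
    (hquad : ∀ h ∈ H, (ρ h - 1) * (ρ h - 1) = 0)
    (hcomm : ∀ g₁ g₂ : G, (g₂ * g₁)⁻¹ * (g₁ * g₂) ∈ H)
    (c : G) (hc2 : c * c = 1) (hdet : LinearMap.det (ρ c) = -1) :
    ∃ N : Submodule k V, (∀ g : G, ∀ x ∈ N, ρ g x ∈ N) ∧ N ≠ ⊥ ∧ N ≠ ⊤ := by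
  haveI : Nontrivial V := Module.nontrivial_of_finrank_pos (R := k) (by rw [hdim]; norm_num)
  obtain ⟨w, hw0, hw⟩ :=
    Fermat.Agent.S36.Top.QuadUnipotent.exists_fixed_of_quadUnipotent h2 ρ H hquad
  have hFbot : fixedSub ρ H ≠ ⊥ := by
    intro h
    have : w ∈ fixedSub ρ H := hw
    rw [h, Submodule.mem_bot] at this
    exact hw0 this
  by_cases hFtop : fixedSub ρ H = ⊤
  swap
  · exact ⟨fixedSub ρ H, fun g x hx => fixedSub_stable ρ H g hx, hFbot, hFtop⟩
  -- `H` acts trivially
  have htriv : ∀ h ∈ H, ρ h = 1 := by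
    intro h hh
    ext v
    have hv : v ∈ fixedSub ρ H := hFtop ▸ Submodule.mem_top
    exact hv h hh
  -- the image is commutative
  have hab : ∀ g₁ g₂ : G, ρ g₁ * ρ g₂ = ρ g₂ * ρ g₁ := by
    intro g₁ g₂
    have h1 := htriv _ (hcomm g₁ g₂)
    have h3 : g₁ * g₂ = (g₂ * g₁) * ((g₂ * g₁)⁻¹ * (g₁ * g₂)) := by group
    calc ρ g₁ * ρ g₂ = ρ (g₁ * g₂) := (map_mul ρ g₁ g₂).symm
      _ = ρ ((g₂ * g₁) * ((g₂ * g₁)⁻¹ * (g₁ * g₂))) := by rw [← h3]
      _ = ρ (g₂ * g₁) := by rw [map_mul, h1, mul_one]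
      _ = ρ g₂ * ρ g₁ := map_mul ρ g₂ g₁
  have hcc : ρ c * ρ c = 1 := by rw [← map_mul, hc2, map_one]
  have hneg : (-1 : k) ≠ 1 := by
    intro h
    apply h2
    have : (2 : k) = 1 - (-1) := by ring
    rw [this, h, sub_self]
  refine ⟨LinearMap.ker (ρ c - 1), fun g x hx => ?_, ?_, ?_⟩
  · rw [LinearMap.mem_ker] at hx ⊢
    have h1 : (ρ c - 1) (ρ g x) = ρ g ((ρ c - 1) x) := by
      have : (ρ c - 1) * ρ g = ρ g * (ρ c - 1) := by
        rw [sub_mul, mul_sub, hab c g, one_mul, mul_one]
      exact LinearMap.congr_fun this x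
    rw [h1, hx, map_zero]
  · -- not `⊥`: otherwise `ρ c = -1`
    intro hbot
    have h1 : ρ c + 1 = 0 := by
      ext v
      have hv : (ρ c + 1) v ∈ LinearMap.ker (ρ c - 1) := by
        rw [LinearMap.mem_ker]
        have : (ρ c - 1) * (ρ c + 1) = 0 := by
          rw [sub_mul, mul_add, mul_add, hcc, one_mul, mul_one, mul_one]
          abel
        exact LinearMap.congr_fun this v
      rw [hbot, Submodule.mem_bot] at hv
      exact hv
    have h3 : ρ c = (-1 : k) • (1 : Module.End k V) := by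
      rw [neg_smul, one_smul]
      exact eq_neg_of_add_eq_zero_left h1
    rw [h3, LinearMap.det_smul, hdim, map_one] at hdet
    norm_num at hdet
    exact hneg hdet.symm
  · -- not `⊤`: otherwise `ρ c = 1`
    intro htop
    have h1 : ρ c = 1 := by
      ext v
      have hv : v ∈ LinearMap.ker (ρ c - 1) := htop ▸ Submodule.mem_top
      rw [LinearMap.mem_ker, LinearMap.sub_apply, sub_eq_zero] at hv
      exact hv
    rw [h1, map_one] at hdet
    exact hneg hdet.symm

end Fermat.Agent.S41.NE.Abstract
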